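import Mathlib.RingTheory.IntegralClosure.IntegrallyClosed
import Mathlib.RingTheory.IntegralClosure.IsIntegralClosure.Basic
import Mathlib.RingTheory.Ideal.Quotient.Operations
import Mathlib.RingTheory.Localization.FractionRing

/-!
# Cell A2, piece M4 (abstract): the components of the special fibre are smooth

Mathlib-only commutative algebra (helper492).

Setting of the application (`N = q M`, `q ∤ M`): `B₀ = B_M` is the normal model of level `M`
(over the discrete valuation ring `R`, uniformiser `w`), `B = B_N` the normal model of level `N`,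
`B₀ → B` one of the two degeneracy maps (`α^*` or `β^*`), `𝔭` the prime of `B` cut out by the
Gauss valuation `V∞` (resp. `V₀`), i.e. one of the two components of the special fibre.

Hypotheses:
* `b` is integral over `B₀` (both models are integral over `R[j]`);
* `𝔭 ∩ B₀ = I` (in the application `I = w B₀`: `q`-expansion principle at level `M`);
* `B₀ ⧸ I` is integrally closed (**S18 b2 at level `M`**: the special fibre of level `M` is normal);
* the residue field of `𝔭` is generated by `B₀`: `d * b - c ∈ 𝔭` with `c, d ∈ B₀`, `d ∉ 𝔭`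
  (Kronecker congruence: the residue field of `V∞` on `F_N` is the one of `F_M`).

Conclusion: `b ∈ B₀ + 𝔭`.  Hence `B ⧸ 𝔭 = B₀ ⧸ I`, which is integrally closed: the component is
smooth.

Main statements:
* `exists_sub_mem_of_integrallyClosed` : the elementwise statement;
* `quotient_surjective_of_integrallyClosed` : `B₀ → B ⧸ 𝔭` is surjective;
* `quotientEquivOfIntegrallyClosed` : `B₀ ⧸ I ≃+* B ⧸ 𝔭`;
* `isIntegrallyClosed_quotient` : `B ⧸ 𝔭` is integrally closed.
-/

set_option autoImplicit false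

open Polynomial

namespace Fermat.Agent.A2.H492

variable {B₀ B : Type*} [CommRing B₀] [CommRing B] [Algebra B₀ B]

/-- An element integral over `B₀` stays integral over `B₀ ⧸ (𝔭 ∩ B₀)` in `B ⧸ 𝔭`. -/
theorem isIntegral_quotient_mk (𝔭 : Ideal B) {b : B} (hb : IsIntegral B₀ b) :
    IsIntegral (B₀ ⧸ 𝔭.comap (algebraMap B₀ B)) (Ideal.Quotient.mk 𝔭 b) := by
  obtain ⟨p, hp, hpb⟩ := hb
  refine ⟨p.map (Ideal.Quotient.mk _), hp.map _, ?_⟩
  have h := congrArg (Ideal.Quotient.mk 𝔭) hpb
  rw [map_zero, hom_eval₂] at h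
  rw [eval₂_map]
  exact h

/-- **M4, core.**  See the module docstring. -/
theorem exists_sub_mem_of_comap (𝔭 : Ideal B) [𝔭.IsPrime]
    [IsIntegrallyClosed (B₀ ⧸ 𝔭.comap (algebraMap B₀ B))]
    {b : B} (hb : IsIntegral B₀ b) {c d : B₀} (hd : algebraMap B₀ B d ∉ 𝔭)
    (h : algebraMap B₀ B d * b - algebraMap B₀ B c ∈ 𝔭) :
    ∃ a : B₀, b - algebraMap B₀ B a ∈ 𝔭 := by
  classical
  set I : Ideal B₀ := 𝔭.comap (algebraMap B₀ B) with hI
  -- the two quotient domains
  let A₀ := B₀ ⧸ I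
  let A := B ⧸ 𝔭
  let K₀ := FractionRing A₀
  let K := FractionRing A
  have hinj : Function.Injective (algebraMap A₀ A) := Ideal.algebraMap_quotient_injective
  have : IsScalarTower A₀ A K := inferInstance
  have : FaithfulSMul A₀ K := by
    rw [faithfulSMul_iff_algebraMap_injective, IsScalarTower.algebraMap_eq A₀ A K]
    exact (IsFractionRing.injective A K).comp hinj
  let _ : Algebra K₀ K := FractionRing.liftAlgebra A₀ K
  have : IsScalarTower A₀ K₀ K := FractionRing.isScalarTower_liftAlgebra A₀ K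
  -- names
  set bb : A := Ideal.Quotient.mk 𝔭 b with hbb
  set cc : A₀ := Ideal.Quotient.mk I c with hcc
  set dd : A₀ := Ideal.Quotient.mk I d with hdd
  have hdd0 : dd ≠ 0 := by
    intro h0
    rw [hdd, Ideal.Quotient.eq_zero_iff_mem, hI, Ideal.mem_comap] at h0
    exact hd h0
  have hrel : algebraMap A₀ A dd * bb = algebraMap A₀ A cc := by
    have := (Ideal.Quotient.eq_zero_iff_mem).2 h
    rw [map_sub, map_mul, sub_eq_zero] at this
    exact this
  have hddK₀ : algebraMap A₀ K₀ dd ≠ 0 := by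
    intro h0
    exact hdd0 ((IsFractionRing.injective A₀ K₀) (by rw [h0, map_zero]))
  -- the element `x = c / d` of the fraction field of `B₀ ⧸ I`
  set x : K₀ := algebraMap A₀ K₀ cc / algebraMap A₀ K₀ dd with hx
  have hddK : algebraMap A₀ K dd ≠ 0 := by
    intro h0
    exact hdd0 ((FaithfulSMul.algebraMap_injective A₀ K) (by rw [h0, map_zero]))
  have hxK : algebraMap K₀ K x = algebraMap A K bb := by
    rw [hx, map_div₀, ← IsScalarTower.algebraMap_apply A₀ K₀ K,
      ← IsScalarTower.algebraMap_apply A₀ K₀ K, div_eq_iff hddK,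
      IsScalarTower.algebraMap_apply A₀ A K cc, ← hrel, map_mul,
      ← IsScalarTower.algebraMap_apply A₀ A K dd, mul_comm]
  have hbbint : IsIntegral A₀ bb := isIntegral_quotient_mk 𝔭 hb
  have hxint : IsIntegral A₀ x := by
    have h1 : IsIntegral A₀ (algebraMap K₀ K x) := by
      rw [hxK]
      exact hbbint.algebraMap
    exact (isIntegral_algebraMap_iff (algebraMap K₀ K).injective).1 h1
  obtain ⟨y, hy⟩ := (isIntegrallyClosed_iff K₀).1 inferInstance hxint
  obtain ⟨a, rfl⟩ := Ideal.Quotient.mk_surjective y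
  refine ⟨a, ?_⟩
  rw [← Ideal.Quotient.eq_zero_iff_mem, map_sub, sub_eq_zero]
  have h2 : algebraMap A K bb = algebraMap A K (algebraMap A₀ A (Ideal.Quotient.mk I a)) := by
    rw [← hxK, ← hy, ← IsScalarTower.algebraMap_apply A₀ K₀ K,
      IsScalarTower.algebraMap_apply A₀ A K]
  exact (IsFractionRing.injective A K) h2

/-- **M4.**  `𝔭 ∩ B₀ = I`, `B₀ ⧸ I` integrally closed, `b` integral over `B₀` with residue class in
the fraction field of `B₀ ⧸ I`:  then `b ∈ B₀ + 𝔭`. -/
theorem exists_sub_mem_of_integrallyClosed (𝔭 : Ideal B) [𝔭.IsPrime] (I : Ideal B₀)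
    (hcomap : 𝔭.comap (algebraMap B₀ B) = I) [IsIntegrallyClosed (B₀ ⧸ I)]
    {b : B} (hb : IsIntegral B₀ b) {c d : B₀} (hd : d ∉ I)
    (h : algebraMap B₀ B d * b - algebraMap B₀ B c ∈ 𝔭) :
    ∃ a : B₀, b - algebraMap B₀ B a ∈ 𝔭 := by
  subst hcomap
  exact exists_sub_mem_of_comap 𝔭 hb (fun hd' => hd (Ideal.mem_comap.2 hd')) h

/-- **M4, principal form** (`I = w B₀`). -/
theorem exists_sub_mem_of_span (𝔭 : Ideal B) [𝔭.IsPrime] (w : B₀)
    (hcomap : ∀ a : B₀, algebraMap B₀ B a ∈ 𝔭 ↔ w ∣ a)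
    [IsIntegrallyClosed (B₀ ⧸ Ideal.span {w})]
    {b : B} (hb : IsIntegral B₀ b) {c d : B₀} (hd : ¬ w ∣ d)
    (h : algebraMap B₀ B d * b - algebraMap B₀ B c ∈ 𝔭) :
    ∃ a : B₀, b - algebraMap B₀ B a ∈ 𝔭 := by
  have hc : 𝔭.comap (algebraMap B₀ B) = Ideal.span {w} := by
    ext a
    rw [Ideal.mem_comap, Ideal.mem_span_singleton]
    exact hcomap a
  exact exists_sub_mem_of_integrallyClosed 𝔭 _ hc hb
    (fun hd' => hd (Ideal.mem_span_singleton.1 hd')) h

section Global

variable (𝔭 : Ideal B) [𝔭.IsPrime] (I : Ideal B₀)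
  (hcomap : 𝔭.comap (algebraMap B₀ B) = I) [IsIntegrallyClosed (B₀ ⧸ I)]
  (hint : ∀ b : B, IsIntegral B₀ b)
  (hfrac : ∀ b : B, ∃ c d : B₀, d ∉ I ∧ algebraMap B₀ B d * b - algebraMap B₀ B c ∈ 𝔭)

include hcomap hint hfrac

/-- `B = B₀ + 𝔭`. -/
theorem exists_sub_mem (b : B) : ∃ a : B₀, b - algebraMap B₀ B a ∈ 𝔭 := by
  obtain ⟨c, d, hd, h⟩ := hfrac b
  exact exists_sub_mem_of_integrallyClosed 𝔭 I hcomap (hint b) hd h

/-- `B₀ → B ⧸ 𝔭` is surjective. -/
theorem quotient_surjective_of_integrallyClosed :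
    Function.Surjective ((Ideal.Quotient.mk 𝔭).comp (algebraMap B₀ B)) := by
  intro y
  obtain ⟨b, rfl⟩ := Ideal.Quotient.mk_surjective y
  obtain ⟨a, ha⟩ := exists_sub_mem 𝔭 I hcomap hint hfrac b
  refine ⟨a, ?_⟩
  rw [RingHom.comp_apply, eq_comm, ← sub_eq_zero, ← map_sub]
  exact Ideal.Quotient.eq_zero_iff_mem.2 ha

/-- The component `B ⧸ 𝔭` is the special fibre `B₀ ⧸ I` of the smaller level. -/
noncomputable def quotientEquivOfIntegrallyClosed : (B₀ ⧸ I) ≃+* (B ⧸ 𝔭) :=
  (Ideal.quotEquivOfEq (show I = RingHom.ker ((Ideal.Quotient.mk 𝔭).comp (algebraMap B₀ B)) by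
      rw [← hcomap]
      ext a
      rw [Ideal.mem_comap, RingHom.mem_ker, RingHom.comp_apply,
        Ideal.Quotient.eq_zero_iff_mem])).trans
    (RingHom.quotientKerEquivOfSurjective
      (quotient_surjective_of_integrallyClosed 𝔭 I hcomap hint hfrac))

theorem quotientEquivOfIntegrallyClosed_mk (a : B₀) :
    quotientEquivOfIntegrallyClosed 𝔭 I hcomap hint hfrac (Ideal.Quotient.mk I a)
      = Ideal.Quotient.mk 𝔭 (algebraMap B₀ B a) := rfl

/-- **M4 (components smooth).**  The component `B ⧸ 𝔭` is integrally closed. -/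
theorem isIntegrallyClosed_quotient : IsIntegrallyClosed (B ⧸ 𝔭) :=
  IsIntegrallyClosed.of_equiv (quotientEquivOfIntegrallyClosed 𝔭 I hcomap hint hfrac)

end Global

end Fermat.Agent.A2.H492
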